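import Fermat.Agent.S36.H586.StepAB

/-!
# S59 / cell (C) LO-SQ, leaf W-NEW (helper117), part 1: the abstract core

"STEP-A without the power `q² - 1`", on the norm tables `H586.NormTable` of `α`, `β`
(three vertical valuations `V_FF`, `V_mid`, `V_VV` of `F` over `V₁`, `V₂` of `F'`).

For `f` with `N_α f, N_β f ∈ w'^ℤ · (F'ˣ)^m`, `gcd(q, m) = 1`:

* `h117_slope`            : the orders of `f` are `t·(1, q-1, 1) + (d, -d, 0)` modulo `m`, with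
                            `(q + 1) d ≡ 0 mod m`  (the SLOPE `d`);
* `h117_slopeZero_of_coprime` : if `gcd(q + 1, m) = 1` the slope vanishes:
                            `f = w ^ t * g₀ ^ m * (unit at the three valuations)`;
* `h117_stepNew`          : slope zero ⟹ `f = w ^ t * G ^ m * u`, `u ≡ 1` at `V_FF`, `V_VV`,
                            `u` a unit at `V_mid` with `u ^ (q - 1) ≡ G₂ ^ m` there, and
                            `N_α u`, `N_β u` are `m`-th powers;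
* `h117_stepNew_mid`      : if moreover `gcd(q - 1, m) = 1` then also `u ≡ 1` at `V_mid`;
* `h117_stepNew_minus`    : `gcd(q + 1, m) = 1` ⟹ the conclusion of `h117_stepNew`
                            (no slope hypothesis).

Mathlib + `S36.H586.StepAB` (on main) only.
-/

set_option autoImplicit false
set_option linter.style.haveILetI false
set_option linter.unusedSectionVars false
set_option linter.unusedVariables false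
set_option maxHeartbeats 1600000

namespace Fermat.Agent.S59.LoSqC.H117

open Fermat.Agent.S36.H586

variable {F' F : Type*} [Field F'] [Field F]

/-- **SLOPE.**  The orders of `f` at the three vertical valuations, modulo `m`:
`(a_FF, a_mid, a_VV) = t·(1, q - 1, 1) + (d, -d, 0) + m·(0, e, 0)` with `(q + 1) d = m d₁`. -/
theorem h117_slope
    (α β : F' →+* F) (Nα Nβ : F → F') (q m : ℕ)
    (w' : F') (w π : F) (hαw : α w' = w) (hβw : β w' = w)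
    (V1 V2 : ValuationSubring F') (VFF Vmid VVV : ValuationSubring F)
    (Tα : NormTable α Nα q w' π V1 V2 VFF Vmid VVV)
    (Tβ : NormTable β Nβ q w' π V2 V1 VVV Vmid VFF)
    (hw'0 : w' ≠ 0) (hw1 : V1.valuation w' < 1) (hw2 : V2.valuation w' < 1)
    (hord1 : ∀ y : F', y ≠ 0 → ∃ a : ℤ, IsOrd V1 w' y a)
    (hord2 : ∀ y : F', y ≠ 0 → ∃ a : ℤ, IsOrd V2 w' y a)
    (f : F)
    (hNα : ∃ (s : ℤ) (g : F'), g ≠ 0 ∧ Nα f = w' ^ s * g ^ m)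
    (hNβ : ∃ (s : ℤ) (g : F'), g ≠ 0 ∧ Nβ f = w' ^ s * g ^ m)
    {aFF amid aVV : ℤ} (hFF : IsOrd VFF w f aFF) (hmid : IsOrd Vmid π f amid)
    (hVV : IsOrd VVV w f aVV) :
    ∃ d₁ e : ℤ, ((q : ℤ) + 1) * (aFF - aVV) = m * d₁ ∧
      amid = ((q : ℤ) - 1) * aVV - (aFF - aVV) + m * e := by
  obtain ⟨sα, gα, hgα0, hNα⟩ := hNα
  obtain ⟨sβ, gβ, hgβ0, hNβ⟩ := hNβ
  obtain ⟨cα1, hcα1⟩ := hord1 gα hgα0
  obtain ⟨cα2, hcα2⟩ := hord2 gα hgα0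
  obtain ⟨cβ1, hcβ1⟩ := hord1 gβ hgβ0
  obtain ⟨cβ2, hcβ2⟩ := hord2 gβ hgβ0
  have E1 : aFF + amid = sα * 1 + m * cα1 := by
    have e1a : IsOrd V1 w' (Nα f) (aFF + amid) := Tα.val_s f aFF amid (hαw ▸ hFF) hmid
    have e1b : IsOrd V1 w' (Nα f) (sα * 1 + m * cα1) := by
      rw [hNα]
      exact ((IsOrd.self).zpow sα).mul hw'0 (hcα1.pow m)
    exact IsOrd.unique hw'0 hw1 e1a e1b
  have E2 : (q : ℤ) * aVV = sα * 1 + m * cα2 := by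
    have e2a : IsOrd V2 w' (Nα f) (q * aVV) := Tα.val_i f aVV (hαw ▸ hVV)
    have e2b : IsOrd V2 w' (Nα f) (sα * 1 + m * cα2) := by
      rw [hNα]
      exact ((IsOrd.self).zpow sα).mul hw'0 (hcα2.pow m)
    exact IsOrd.unique hw'0 hw2 e2a e2b
  have E3 : aVV + amid = sβ * 1 + m * cβ2 := by
    have e3a : IsOrd V2 w' (Nβ f) (aVV + amid) := Tβ.val_s f aVV amid (hβw ▸ hVV) hmid
    have e3b : IsOrd V2 w' (Nβ f) (sβ * 1 + m * cβ2) := by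
      rw [hNβ]
      exact ((IsOrd.self).zpow sβ).mul hw'0 (hcβ2.pow m)
    exact IsOrd.unique hw'0 hw2 e3a e3b
  have E4 : (q : ℤ) * aFF = sβ * 1 + m * cβ1 := by
    have e4a : IsOrd V1 w' (Nβ f) (q * aFF) := Tβ.val_i f aFF (hβw ▸ hFF)
    have e4b : IsOrd V1 w' (Nβ f) (sβ * 1 + m * cβ1) := by
      rw [hNβ]
      exact ((IsOrd.self).zpow sβ).mul hw'0 (hcβ1.pow m)
    exact IsOrd.unique hw'0 hw1 e4a e4b
  refine ⟨cα1 - cα2 - cβ2 + cβ1, cα1 - cα2, ?_, ?_⟩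
  · linear_combination E1 - E2 - E3 + E4
  · linear_combination E1 - E2

/-- **SLOPE ZERO** when `gcd(q + 1, m) = 1`:  `f = w ^ t * g₀ ^ m * (unit at the three)`. -/
theorem h117_slopeZero_of_coprime
    (α β : F' →+* F) (Nα Nβ : F → F') (q m : ℕ)
    (hq1m : Nat.Coprime (q + 1) m)
    (w' : F') (w π : F) (hαw : α w' = w) (hβw : β w' = w)
    (V1 V2 : ValuationSubring F') (VFF Vmid VVV : ValuationSubring F)
    (Tα : NormTable α Nα q w' π V1 V2 VFF Vmid VVV)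
    (Tβ : NormTable β Nβ q w' π V2 V1 VVV Vmid VFF)
    (hw'0 : w' ≠ 0) (hw1 : V1.valuation w' < 1) (hw2 : V2.valuation w' < 1)
    (hπ0 : π ≠ 0)
    (hram : IsOrd Vmid π w ((q : ℤ) - 1))
    (hordFF : ∀ y : F, y ≠ 0 → ∃ a : ℤ, IsOrd VFF w y a)
    (hordmid : ∀ y : F, y ≠ 0 → ∃ a : ℤ, IsOrd Vmid π y a)
    (hordVV : ∀ y : F, y ≠ 0 → ∃ a : ℤ, IsOrd VVV w y a)
    (hord1 : ∀ y : F', y ≠ 0 → ∃ a : ℤ, IsOrd V1 w' y a)
    (hord2 : ∀ y : F', y ≠ 0 → ∃ a : ℤ, IsOrd V2 w' y a)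
    (hap_ord : ∀ a b c : ℤ, ∃ g : F, IsOrd VFF w g a ∧ IsOrd Vmid π g b ∧ IsOrd VVV w g c)
    (f : F) (hf : f ≠ 0)
    (hNα : ∃ (s : ℤ) (g : F'), g ≠ 0 ∧ Nα f = w' ^ s * g ^ m)
    (hNβ : ∃ (s : ℤ) (g : F'), g ≠ 0 ∧ Nβ f = w' ^ s * g ^ m) :
    ∃ (t : ℤ) (g₀ : F), g₀ ≠ 0 ∧
      VFF.valuation (f * (w ^ t)⁻¹ * (g₀ ^ m)⁻¹) = 1 ∧
      Vmid.valuation (f * (w ^ t)⁻¹ * (g₀ ^ m)⁻¹) = 1 ∧
      VVV.valuation (f * (w ^ t)⁻¹ * (g₀ ^ m)⁻¹) = 1 := by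
  have hw0 : w ≠ 0 := by
    rw [← hαw]
    exact (map_ne_zero α).2 hw'0
  obtain ⟨aFF, hFF⟩ := hordFF f hf
  obtain ⟨amid, hmid⟩ := hordmid f hf
  obtain ⟨aVV, hVV⟩ := hordVV f hf
  obtain ⟨d₁, e, hd, he⟩ := h117_slope α β Nα Nβ q m w' w π hαw hβw V1 V2 VFF Vmid VVV Tα Tβ
    hw'0 hw1 hw2 hord1 hord2 f hNα hNβ hFF hmid hVV
  -- `m ∣ a_FF - a_VV`
  have hdvd : (m : ℤ) ∣ aFF - aVV := by
    have h1 : (m : ℤ) ∣ ((q : ℤ) + 1) * (aFF - aVV) := ⟨d₁, hd⟩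
    have hcop : IsCoprime (m : ℤ) ((q : ℤ) + 1) := by
      have := Nat.isCoprime_iff_coprime.2 hq1m.symm
      simpa using this
    exact hcop.dvd_of_dvd_mul_left h1
  obtain ⟨c, hc⟩ := hdvd
  obtain ⟨g₀, hg₀FF, hg₀mid, hg₀VV⟩ := hap_ord c (e - c) 0
  have hg₀0 : g₀ ≠ 0 := hg₀FF.ne_zero hw0
  refine ⟨aVV, g₀, hg₀0, ?_, ?_, ?_⟩
  · have h1 : IsOrd VFF w (f * (w ^ aVV)⁻¹ * (g₀ ^ m)⁻¹) (aFF + -(aVV * 1) + -(m * c)) :=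
      (hFF.mul hw0 ((IsOrd.self).zpow aVV).inv).mul hw0 (hg₀FF.pow m).inv
    refine (h1.congr ?_).val_eq_one
    linear_combination hc
  · have h1 : IsOrd Vmid π (f * (w ^ aVV)⁻¹ * (g₀ ^ m)⁻¹)
        (amid + -(aVV * ((q : ℤ) - 1)) + -(m * (e - c))) :=
      (hmid.mul hπ0 (hram.zpow aVV).inv).mul hπ0 (hg₀mid.pow m).inv
    refine (h1.congr ?_).val_eq_one
    linear_combination he - hc
  · have h1 : IsOrd VVV w (f * (w ^ aVV)⁻¹ * (g₀ ^ m)⁻¹) (aVV + -(aVV * 1) + -(m * 0)) :=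
      (hVV.mul hw0 ((IsOrd.self).zpow aVV).inv).mul hw0 (hg₀VV.pow m).inv
    refine (h1.congr ?_).val_eq_one
    ring

/-- **STEP-NEW** (STEP-A without the power `q² - 1`).  If the slope of `f` vanishes
(`f = w ^ t * g₀ ^ m * unit`), then `f = w ^ t * G ^ m * u` with `u ≡ 1` at `V_FF` and `V_VV`,
`u` a unit at `V_mid` whose `(q - 1)`-st power is an `m`-th power residually, and the norms of
`u` are `m`-th powers. -/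
theorem h117_stepNew
    (α β : F' →+* F) (Nα Nβ : F → F') (q m : ℕ) (hm : 0 < m)
    (hqm : Nat.Coprime q m)
    (w' : F') (w π : F) (hαw : α w' = w) (hβw : β w' = w)
    (V1 V2 : ValuationSubring F') (VFF Vmid VVV : ValuationSubring F)
    (Tα : NormTable α Nα q w' π V1 V2 VFF Vmid VVV)
    (Tβ : NormTable β Nβ q w' π V2 V1 VVV Vmid VFF)
    (hw'0 : w' ≠ 0) (hw1 : V1.valuation w' < 1) (hw2 : V2.valuation w' < 1)
    (hord1 : ∀ y : F', y ≠ 0 → ∃ a : ℤ, IsOrd V1 w' y a)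
    (hord2 : ∀ y : F', y ≠ 0 → ∃ a : ℤ, IsOrd V2 w' y a)
    (hap_res : ∀ g₁ g₂ g₃ : F, VFF.valuation g₁ = 1 → Vmid.valuation g₂ = 1 →
      VVV.valuation g₃ = 1 → ∃ g : F, PU VFF (g / g₁) ∧ PU Vmid (g / g₂) ∧ PU VVV (g / g₃))
    (f : F)
    (hNα : ∃ (s : ℤ) (g : F'), g ≠ 0 ∧ Nα f = w' ^ s * g ^ m)
    (hNβ : ∃ (s : ℤ) (g : F'), g ≠ 0 ∧ Nβ f = w' ^ s * g ^ m)
    (t : ℤ) (g₀ : F) (hg₀0 : g₀ ≠ 0)
    (hf₁FF : VFF.valuation (f * (w ^ t)⁻¹ * (g₀ ^ m)⁻¹) = 1)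
    (hf₁mid : Vmid.valuation (f * (w ^ t)⁻¹ * (g₀ ^ m)⁻¹) = 1)
    (hf₁VV : VVV.valuation (f * (w ^ t)⁻¹ * (g₀ ^ m)⁻¹) = 1) :
    ∃ (G u G₂ : F), G ≠ 0 ∧ f = w ^ t * G ^ m * u ∧
      PU VFF u ∧ Vmid.valuation u = 1 ∧ PU VVV u ∧
      G₂ ≠ 0 ∧ Vmid.valuation G₂ = 1 ∧ PU Vmid (u ^ (q - 1) / G₂ ^ m) ∧
      (∃ k₁ : F', Nα u = k₁ ^ m) ∧ (∃ k₂ : F', Nβ u = k₂ ^ m) := by
  have hw0 : w ≠ 0 := by
    rw [← hαw]
    exact (map_ne_zero α).2 hw'0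
  obtain ⟨sα, gα, hgα0, hNα⟩ := hNα
  obtain ⟨sβ, gβ, hgβ0, hNβ⟩ := hNβ
  set f₁ : F := f * (w ^ t)⁻¹ * (g₀ ^ m)⁻¹ with hf₁
  have hf₁' : f ^ 1 * (w ^ t)⁻¹ * (g₀ ^ m)⁻¹ = f₁ := by rw [pow_one]
  -- norms of `f₁`
  obtain ⟨hα, hα1, hα2, hNα₁⟩ : ∃ h : F', V1.valuation h = 1 ∧ V2.valuation h = 1 ∧
      Nα f₁ = h ^ m := by
    have := Tα.norm_unit_pow hm hw'0 hw1 hord1 hg₀0 hgα0 hNα 1 t
      (by rw [hαw, hf₁']; exact hf₁FF) (by rw [hαw, hf₁']; exact hf₁mid)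
      (by rw [hαw, hf₁']; exact hf₁VV)
    rw [hαw, hf₁'] at this
    simpa using this
  obtain ⟨hβ, hβ2, hβ1, hNβ₁⟩ : ∃ h : F', V2.valuation h = 1 ∧ V1.valuation h = 1 ∧
      Nβ f₁ = h ^ m := by
    have := Tβ.norm_unit_pow hm hw'0 hw2 hord2 hg₀0 hgβ0 hNβ 1 t
      (by rw [hβw, hf₁']; exact hf₁VV) (by rw [hβw, hf₁']; exact hf₁mid)
      (by rw [hβw, hf₁']; exact hf₁FF)
    rw [hβw, hf₁'] at this
    simpa using this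
  -- residues
  obtain ⟨GVV, hGVV0, hGVV⟩ := Tα.pu_insep hqm hf₁VV hα2 hNα₁
  obtain ⟨GFF, hGFF0, hGFF⟩ := Tβ.pu_insep hqm hf₁FF hβ1 hNβ₁
  have hGFF1 : VFF.valuation GFF = 1 := by
    apply val_eq_one_of_pow hm
    have h1 := hGFF.val_eq_one
    rw [map_div₀, hf₁FF] at h1
    have h2 : VFF.valuation (GFF ^ m) ≠ 0 := val_ne_zero_of_ne_zero (pow_ne_zero _ hGFF0)
    field_simp at h1
    exact h1.symm
  have hGVV1 : VVV.valuation GVV = 1 := by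
    apply val_eq_one_of_pow hm
    have h1 := hGVV.val_eq_one
    rw [map_div₀, hf₁VV] at h1
    have h2 : VVV.valuation (GVV ^ m) ≠ 0 := val_ne_zero_of_ne_zero (pow_ne_zero _ hGVV0)
    field_simp at h1
    exact h1.symm
  obtain ⟨Gmid, hGmid0, hGmid1, hGmid⟩ := Tα.pu_split hf₁FF hf₁mid hα1 hNα₁ hGFF1 hGFF
  -- approximation: `G ≡ G_FF`, `G ≡ 1`, `G ≡ G_VV`
  obtain ⟨G, hGa, hGb, hGc⟩ := hap_res GFF 1 GVV hGFF1 (by rw [map_one]) hGVV1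
  have hG0 : G ≠ 0 := by
    intro h0
    rw [h0, zero_div] at hGa
    exact hGa.ne_zero rfl
  have hGmidval : Vmid.valuation G = 1 := by
    have := hGb.val_eq_one
    rwa [div_one] at this
  have hw_t : w ^ t ≠ 0 := zpow_ne_zero _ hw0
  have hg₀m : g₀ ^ m ≠ 0 := pow_ne_zero _ hg₀0
  have hGm : G ^ m ≠ 0 := pow_ne_zero _ hG0
  have hGq : G ^ (q - 1) ≠ 0 := pow_ne_zero _ hG0
  refine ⟨g₀ * G, f₁ / G ^ m, Gmid / G ^ (q - 1), mul_ne_zero hg₀0 hG0, ?_, ?_, ?_, ?_,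
    div_ne_zero hGmid0 hGq, ?_, ?_, ?_, ?_⟩
  · rw [hf₁, mul_pow]
    field_simp
  · have e : f₁ / G ^ m = (f₁ / GFF ^ m) * ((G / GFF) ^ m)⁻¹ := by
      rw [div_pow]
      have h4 : GFF ^ m ≠ 0 := pow_ne_zero _ hGFF0
      field_simp
    rw [e]
    exact hGFF.mul (hGa.pow m).inv
  · rw [map_div₀, map_pow, hGmidval, one_pow, div_one]
    exact hf₁mid
  · have e : f₁ / G ^ m = (f₁ / GVV ^ m) * ((G / GVV) ^ m)⁻¹ := by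
      rw [div_pow]
      have h4 : GVV ^ m ≠ 0 := pow_ne_zero _ hGVV0
      field_simp
    rw [e]
    exact hGVV.mul (hGc.pow m).inv
  · rw [map_div₀, map_pow, hGmidval, one_pow, div_one]
    exact hGmid1
  · have e : (f₁ / G ^ m) ^ (q - 1) / (Gmid / G ^ (q - 1)) ^ m = f₁ ^ (q - 1) / Gmid ^ m := by
      rw [div_pow, div_pow, ← pow_mul, ← pow_mul, mul_comm m (q - 1)]
      have h4 : Gmid ^ m ≠ 0 := pow_ne_zero _ hGmid0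
      have h5 : G ^ ((q - 1) * m) ≠ 0 := pow_ne_zero _ hG0
      field_simp
    rw [e]
    exact hGmid
  · refine ⟨hα * (Nα G)⁻¹, ?_⟩
    rw [div_eq_mul_inv, Tα.norm_mul, hNα₁,
      nfn_inv Tα.norm_one Tα.norm_mul (pow_ne_zero _ hG0), nfn_pow Tα.norm_one Tα.norm_mul,
      mul_pow, inv_pow]
  · refine ⟨hβ * (Nβ G)⁻¹, ?_⟩
    rw [div_eq_mul_inv, Tβ.norm_mul, hNβ₁,
      nfn_inv Tβ.norm_one Tβ.norm_mul (pow_ne_zero _ hG0), nfn_pow Tβ.norm_one Tβ.norm_mul,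
      mul_pow, inv_pow]

/-- **STEP-NEW, middle component normalised**: if moreover `gcd(q - 1, m) = 1`, then `u ≡ 1` at the
three valuations. -/
theorem h117_stepNew_mid
    (α β : F' →+* F) (Nα Nβ : F → F') (q m : ℕ) (hm : 0 < m)
    (hqm : Nat.Coprime q m) (hq1m : Nat.Coprime (q - 1) m)
    (w' : F') (w π : F) (hαw : α w' = w) (hβw : β w' = w)
    (V1 V2 : ValuationSubring F') (VFF Vmid VVV : ValuationSubring F)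
    (Tα : NormTable α Nα q w' π V1 V2 VFF Vmid VVV)
    (Tβ : NormTable β Nβ q w' π V2 V1 VVV Vmid VFF)
    (hw'0 : w' ≠ 0) (hw1 : V1.valuation w' < 1) (hw2 : V2.valuation w' < 1)
    (hord1 : ∀ y : F', y ≠ 0 → ∃ a : ℤ, IsOrd V1 w' y a)
    (hord2 : ∀ y : F', y ≠ 0 → ∃ a : ℤ, IsOrd V2 w' y a)
    (hap_res : ∀ g₁ g₂ g₃ : F, VFF.valuation g₁ = 1 → Vmid.valuation g₂ = 1 →
      VVV.valuation g₃ = 1 → ∃ g : F, PU VFF (g / g₁) ∧ PU Vmid (g / g₂) ∧ PU VVV (g / g₃))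
    (f : F)
    (hNα : ∃ (s : ℤ) (g : F'), g ≠ 0 ∧ Nα f = w' ^ s * g ^ m)
    (hNβ : ∃ (s : ℤ) (g : F'), g ≠ 0 ∧ Nβ f = w' ^ s * g ^ m)
    (t : ℤ) (g₀ : F) (hg₀0 : g₀ ≠ 0)
    (hf₁FF : VFF.valuation (f * (w ^ t)⁻¹ * (g₀ ^ m)⁻¹) = 1)
    (hf₁mid : Vmid.valuation (f * (w ^ t)⁻¹ * (g₀ ^ m)⁻¹) = 1)
    (hf₁VV : VVV.valuation (f * (w ^ t)⁻¹ * (g₀ ^ m)⁻¹) = 1) :
    ∃ (G u : F), G ≠ 0 ∧ f = w ^ t * G ^ m * u ∧
      PU VFF u ∧ PU Vmid u ∧ PU VVV u ∧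
      (∃ k₁ : F', Nα u = k₁ ^ m) ∧ (∃ k₂ : F', Nβ u = k₂ ^ m) := by
  obtain ⟨G, u, G₂, hG0, hfeq, hu1, hu2, hu3, hG₂0, hG₂1, hG₂, ⟨k₁, hk₁⟩, ⟨k₂, hk₂⟩⟩ :=
    h117_stepNew α β Nα Nβ q m hm hqm w' w π hαw hβw V1 V2 VFF Vmid VVV Tα Tβ hw'0 hw1 hw2
      hord1 hord2 hap_res f hNα hNβ t g₀ hg₀0 hf₁FF hf₁mid hf₁VV
  have hu0 : u ≠ 0 := ne_of_val hu2
  -- the residue of `u` at `V_mid` is an `m`-th power
  obtain ⟨H, hH0, hH⟩ := exists_pu_div_pow_of_coprime (V := Vmid) hq1m hu0 hG₂0 hG₂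
  have hH1 : Vmid.valuation H = 1 := by
    apply val_eq_one_of_pow hm
    have h1 := hH.val_eq_one
    rw [map_div₀, hu2] at h1
    have h2 : Vmid.valuation (H ^ m) ≠ 0 := val_ne_zero_of_ne_zero (pow_ne_zero _ hH0)
    field_simp at h1
    exact h1.symm
  obtain ⟨K, hKa, hKb, hKc⟩ := hap_res 1 H 1 (by rw [map_one]) hH1 (by rw [map_one])
  have hK0 : K ≠ 0 := by
    intro h0
    rw [h0, zero_div] at hKa
    exact hKa.ne_zero rfl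
  rw [div_one] at hKa hKc
  have hKm : K ^ m ≠ 0 := pow_ne_zero _ hK0
  have hGm : G ^ m ≠ 0 := pow_ne_zero _ hG0
  refine ⟨G * K, u / K ^ m, mul_ne_zero hG0 hK0, ?_, ?_, ?_, ?_, ?_, ?_⟩
  · rw [hfeq, mul_pow]
    field_simp
  · rw [div_eq_mul_inv]
    exact hu1.mul (hKa.pow m).inv
  · have e : u / K ^ m = (u / H ^ m) * ((K / H) ^ m)⁻¹ := by
      rw [div_pow]
      have h4 : H ^ m ≠ 0 := pow_ne_zero _ hH0
      field_simp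
    rw [e]
    exact hH.mul (hKb.pow m).inv
  · rw [div_eq_mul_inv]
    exact hu3.mul (hKc.pow m).inv
  · refine ⟨k₁ * (Nα K)⁻¹, ?_⟩
    rw [div_eq_mul_inv, Tα.norm_mul, hk₁,
      nfn_inv Tα.norm_one Tα.norm_mul (pow_ne_zero _ hK0), nfn_pow Tα.norm_one Tα.norm_mul,
      mul_pow, inv_pow]
  · refine ⟨k₂ * (Nβ K)⁻¹, ?_⟩
    rw [div_eq_mul_inv, Tβ.norm_mul, hk₂,
      nfn_inv Tβ.norm_one Tβ.norm_mul (pow_ne_zero _ hK0), nfn_pow Tβ.norm_one Tβ.norm_mul,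
      mul_pow, inv_pow]

/-- **STEP-NEW, case `gcd(q + 1, m) = 1`** (`p ∣ q - 1` allowed): no slope hypothesis. -/
theorem h117_stepNew_minus
    (α β : F' →+* F) (Nα Nβ : F → F') (q m : ℕ) (hm : 0 < m)
    (hqm : Nat.Coprime q m) (hq1m : Nat.Coprime (q + 1) m)
    (w' : F') (w π : F) (hαw : α w' = w) (hβw : β w' = w)
    (V1 V2 : ValuationSubring F') (VFF Vmid VVV : ValuationSubring F)
    (Tα : NormTable α Nα q w' π V1 V2 VFF Vmid VVV)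
    (Tβ : NormTable β Nβ q w' π V2 V1 VVV Vmid VFF)
    (hw'0 : w' ≠ 0) (hw1 : V1.valuation w' < 1) (hw2 : V2.valuation w' < 1)
    (hπ0 : π ≠ 0)
    (hram : IsOrd Vmid π w ((q : ℤ) - 1))
    (hordFF : ∀ y : F, y ≠ 0 → ∃ a : ℤ, IsOrd VFF w y a)
    (hordmid : ∀ y : F, y ≠ 0 → ∃ a : ℤ, IsOrd Vmid π y a)
    (hordVV : ∀ y : F, y ≠ 0 → ∃ a : ℤ, IsOrd VVV w y a)
    (hord1 : ∀ y : F', y ≠ 0 → ∃ a : ℤ, IsOrd V1 w' y a)
    (hord2 : ∀ y : F', y ≠ 0 → ∃ a : ℤ, IsOrd V2 w' y a)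
    (hap_ord : ∀ a b c : ℤ, ∃ g : F, IsOrd VFF w g a ∧ IsOrd Vmid π g b ∧ IsOrd VVV w g c)
    (hap_res : ∀ g₁ g₂ g₃ : F, VFF.valuation g₁ = 1 → Vmid.valuation g₂ = 1 →
      VVV.valuation g₃ = 1 → ∃ g : F, PU VFF (g / g₁) ∧ PU Vmid (g / g₂) ∧ PU VVV (g / g₃))
    (f : F) (hf : f ≠ 0)
    (hNα : ∃ (s : ℤ) (g : F'), g ≠ 0 ∧ Nα f = w' ^ s * g ^ m)
    (hNβ : ∃ (s : ℤ) (g : F'), g ≠ 0 ∧ Nβ f = w' ^ s * g ^ m) :
    ∃ (t : ℤ) (G u G₂ : F), G ≠ 0 ∧ f = w ^ t * G ^ m * u ∧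
      PU VFF u ∧ Vmid.valuation u = 1 ∧ PU VVV u ∧
      G₂ ≠ 0 ∧ Vmid.valuation G₂ = 1 ∧ PU Vmid (u ^ (q - 1) / G₂ ^ m) ∧
      (∃ k₁ : F', Nα u = k₁ ^ m) ∧ (∃ k₂ : F', Nβ u = k₂ ^ m) := by
  obtain ⟨t, g₀, hg₀0, h1, h2, h3⟩ := h117_slopeZero_of_coprime α β Nα Nβ q m hq1m w' w π hαw hβw
    V1 V2 VFF Vmid VVV Tα Tβ hw'0 hw1 hw2 hπ0 hram hordFF hordmid hordVV hord1 hord2 hap_ord
    f hf hNα hNβ
  exact ⟨t, h117_stepNew α β Nα Nβ q m hm hqm w' w π hαw hβw V1 V2 VFF Vmid VVV Tα Tβ hw'0 hw1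
    hw2 hord1 hord2 hap_res f hNα hNβ t g₀ hg₀0 h1 h2 h3⟩

end Fermat.Agent.S59.LoSqC.H117
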