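import Fermat.Agent.S36.H586.LeafStepA
import Fermat.Agent.S59.LoSqC.H117.NewCore

/-!
# S59 / cell (C) LO-SQ, leaf W-NEW (helper117), part 2: the leaves in `Eng.TripleCtx` form

"STEP-A WITHOUT the power `q² - 1`": for `f ≠ 0` NEW (`N_α f`, `N_β f` constants times `m`-th
powers, `q ∤ m`) in a three-component context `Eng.TripleCtx`:

* `LeafNewMinus`  (`gcd(q + 1, m) = 1`; covers `p ∣ q - 1`):
    `f = w ^ s * G ^ m * u`, `u ≡ 1` on `V₁`, `V₃`, `u` a unit of `V₂` with `u ^ (q - 1) ≡ G₂ ^ m`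
    on `V₂`, and `N_α u`, `N_β u` are `m`-th powers.      `h117_leafNewMinus : LeafNewMinus`.
* `LeafNewPlus`   (`gcd(q - 1, m) = 1`; covers `p ∣ q + 1`; the slope is a HYPOTHESIS, to be
    supplied by W-SLOPE):  slope zero ⟹ `f = w ^ s * G ^ m * u`, `u ≡ 1` on `V₁`, `V₂`, `V₃`,
    norms `m`-th powers = the conclusion of `Alg3.LeafStepA` WITHOUT the power.
                                                          `h117_leafNewPlus : LeafNewPlus`.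
* `LeafNewZero`   (no coprimality beyond `q ∤ m`): slope zero ⟹ the conclusion of
    `LeafNewMinus`.                                       `h117_leafNewZero : LeafNewZero`.
* `LeafSlope`     the SLOPE of a new `f`: orders `≡ t·(1, q-1, 1) + (d, -d, 0)` modulo `m`,
    `(q + 1) d ≡ 0 mod m`.                                `h117_leafSlope : LeafSlope`.

Plumbing = `S36.H586.leafStepA` (on main); cores = `NewCore.lean`.
-/

set_option autoImplicit false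
set_option linter.style.haveILetI false
set_option linter.unusedSectionVars false
set_option linter.unusedVariables false
set_option synthInstance.maxHeartbeats 400000
set_option maxHeartbeats 1600000

noncomputable section

namespace Fermat.Agent.S59.LoSqC.H117

open Fermat.Agent Fermat.Agent.S36.Eng Fermat.Agent.S36.H586
open Fermat.Agent.S18.H138 (chart baseField)
open Fermat.Agent.A2.H12 (IsSheet)

/-! ## The statements -/

/-- The conclusion "`f = w ^ s * G ^ m * u`, `u ≡ 1` on `V₁`, `V₃`, residue of `u ^ (q - 1)` on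
`V₂` an `m`-th power, norms of `u` `m`-th powers". -/
def NewForm {R F F' : Type*} [CommRing R] [Field F] [Field F'] [Algebra R F]
    (w : R) (q m : ℕ) (Nα Nβ : F → F') (V₁ V₂ V₃ : ValuationSubring F) (f : F) : Prop :=
  ∃ (s : ℤ) (G u G₂ : F) (k₁ k₂ : F'), G ≠ 0 ∧
    f = algebraMap R F w ^ s * G ^ m * u ∧
    u - 1 ∈ V₁.nonunits ∧ UnitAt V₂ u ∧ u - 1 ∈ V₃.nonunits ∧
    UnitAt V₂ G₂ ∧ u ^ (q - 1) - G₂ ^ m ∈ V₂.nonunits ∧
    Nα u = k₁ ^ m ∧ Nβ u = k₂ ^ m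

/-- Slope zero: `f = w ^ s₀ * g₀ ^ m * (unit of V₁, V₂, V₃)`. -/
def SlopeZero {R F : Type*} [CommRing R] [Field F] [Algebra R F]
    (w : R) (m : ℕ) (V₁ V₂ V₃ : ValuationSubring F) (f : F) : Prop :=
  ∃ (s₀ : ℤ) (g₀ : F), g₀ ≠ 0 ∧
    UnitAt V₁ (f * (algebraMap R F w ^ s₀)⁻¹ * (g₀ ^ m)⁻¹) ∧
    UnitAt V₂ (f * (algebraMap R F w ^ s₀)⁻¹ * (g₀ ^ m)⁻¹) ∧
    UnitAt V₃ (f * (algebraMap R F w ^ s₀)⁻¹ * (g₀ ^ m)⁻¹)

/-- **Leaf W-NEW, case `gcd(q + 1, m) = 1`.** -/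
def LeafNewMinus : Prop :=
  ∀ {R E F F' : Type} [CommRing R] [IsDomain R] [IsDiscreteValuationRing R]
    [HenselianLocalRing R] [IsAlgClosed (IsLocalRing.ResidueField R)]
    [Field E] [CharZero E] [Algebra R E] [IsFractionRing R E]
    [Field F] [Algebra E F] [Algebra R F] [IsScalarTower R E F]
    [Field F'] [Algebra E F'] [Algebra R F'] [IsScalarTower R E F']
    (w : R) (_ : Irreducible w) (q : ℕ) (_ : q.Prime)
    (_ : (q : R) ∈ IsLocalRing.maximalIdeal R)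
    (α β : F' →ₐ[E] F) (x : F) (x' : F')
    (V₁ V₂ V₃ : ValuationSubring F) (V₁' V₂' : ValuationSubring F')
    (_ : TripleCtx w q α β x x' V₁ V₂ V₃ V₁' V₂'),
    ∀ m : ℕ, 0 < m → ¬ q ∣ m → Nat.Coprime (q + 1) m →
      ∀ f : F, f ≠ 0 → S35.G.NormPow α m f → S35.G.NormPow β m f →
        NewForm w q m (S29.H395.normAlong α) (S29.H395.normAlong β) V₁ V₂ V₃ f

/-- **Leaf W-NEW, slope zero given** (no coprimality beyond `q ∤ m`). -/
def LeafNewZero : Prop :=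
  ∀ {R E F F' : Type} [CommRing R] [IsDomain R] [IsDiscreteValuationRing R]
    [HenselianLocalRing R] [IsAlgClosed (IsLocalRing.ResidueField R)]
    [Field E] [CharZero E] [Algebra R E] [IsFractionRing R E]
    [Field F] [Algebra E F] [Algebra R F] [IsScalarTower R E F]
    [Field F'] [Algebra E F'] [Algebra R F'] [IsScalarTower R E F']
    (w : R) (_ : Irreducible w) (q : ℕ) (_ : q.Prime)
    (_ : (q : R) ∈ IsLocalRing.maximalIdeal R)
    (α β : F' →ₐ[E] F) (x : F) (x' : F')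
    (V₁ V₂ V₃ : ValuationSubring F) (V₁' V₂' : ValuationSubring F')
    (_ : TripleCtx w q α β x x' V₁ V₂ V₃ V₁' V₂'),
    ∀ m : ℕ, 0 < m → ¬ q ∣ m →
      ∀ f : F, f ≠ 0 → S35.G.NormPow α m f → S35.G.NormPow β m f →
        SlopeZero w m V₁ V₂ V₃ f →
        NewForm w q m (S29.H395.normAlong α) (S29.H395.normAlong β) V₁ V₂ V₃ f

/-- **Leaf W-NEW, case `gcd(q - 1, m) = 1`, slope zero given**: the conclusion of
`Alg3.LeafStepA` WITHOUT the power `q² - 1`. -/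
def LeafNewPlus : Prop :=
  ∀ {R E F F' : Type} [CommRing R] [IsDomain R] [IsDiscreteValuationRing R]
    [HenselianLocalRing R] [IsAlgClosed (IsLocalRing.ResidueField R)]
    [Field E] [CharZero E] [Algebra R E] [IsFractionRing R E]
    [Field F] [Algebra E F] [Algebra R F] [IsScalarTower R E F]
    [Field F'] [Algebra E F'] [Algebra R F'] [IsScalarTower R E F']
    (w : R) (_ : Irreducible w) (q : ℕ) (_ : q.Prime)
    (_ : (q : R) ∈ IsLocalRing.maximalIdeal R)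
    (α β : F' →ₐ[E] F) (x : F) (x' : F')
    (V₁ V₂ V₃ : ValuationSubring F) (V₁' V₂' : ValuationSubring F')
    (_ : TripleCtx w q α β x x' V₁ V₂ V₃ V₁' V₂'),
    ∀ m : ℕ, 0 < m → ¬ q ∣ m → Nat.Coprime (q - 1) m →
      ∀ f : F, f ≠ 0 → S35.G.NormPow α m f → S35.G.NormPow β m f →
        SlopeZero w m V₁ V₂ V₃ f →
        ∃ (s : ℤ) (G u : F) (k₁ k₂ : F'), G ≠ 0 ∧
          f = algebraMap R F w ^ s * G ^ m * u ∧
          u - 1 ∈ V₁.nonunits ∧ u - 1 ∈ V₂.nonunits ∧ u - 1 ∈ V₃.nonunits ∧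
          S29.H395.normAlong α u = k₁ ^ m ∧ S29.H395.normAlong β u = k₂ ^ m

/-- **Leaf SLOPE (valuation part)**: the orders of a new `f` at `V₁`, `V₂`, `V₃` are
`t·(1, q - 1, 1) + (d, -d, 0)` modulo `m`, with `(q + 1) d ≡ 0 mod m`:
`f = w ^ t * g₀ ^ m * f₀` with `f₀` of orders `(d, -d, 0)`. -/
def LeafSlope : Prop :=
  ∀ {R E F F' : Type} [CommRing R] [IsDomain R] [IsDiscreteValuationRing R]
    [HenselianLocalRing R] [IsAlgClosed (IsLocalRing.ResidueField R)]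
    [Field E] [CharZero E] [Algebra R E] [IsFractionRing R E]
    [Field F] [Algebra E F] [Algebra R F] [IsScalarTower R E F]
    [Field F'] [Algebra E F'] [Algebra R F'] [IsScalarTower R E F']
    (w : R) (_ : Irreducible w) (q : ℕ) (_ : q.Prime)
    (_ : (q : R) ∈ IsLocalRing.maximalIdeal R)
    (α β : F' →ₐ[E] F) (x : F) (x' : F')
    (V₁ V₂ V₃ : ValuationSubring F) (V₁' V₂' : ValuationSubring F')
    (_ : TripleCtx w q α β x x' V₁ V₂ V₃ V₁' V₂'),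
    ∀ m : ℕ, 0 < m → ¬ q ∣ m →
      ∀ f : F, f ≠ 0 → S35.G.NormPow α m f → S35.G.NormPow β m f →
        ∀ π : F, UnifAt V₂ π →
        ∃ (t d d₁ : ℤ) (g₀ : F), g₀ ≠ 0 ∧ ((q : ℤ) + 1) * d = m * d₁ ∧
          UnitAt V₁ (f * (algebraMap R F w ^ (t + d))⁻¹ * (g₀ ^ m)⁻¹) ∧
          UnitAt V₂ (f * (algebraMap R F w ^ t)⁻¹ * (π ^ (-d))⁻¹ * (g₀ ^ m)⁻¹) ∧
          UnitAt V₃ (f * (algebraMap R F w ^ t)⁻¹ * (g₀ ^ m)⁻¹)

/-! ## The context package -/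

section Pack

variable {R E F F' : Type} [CommRing R] [IsDomain R] [IsDiscreteValuationRing R]
  [HenselianLocalRing R] [IsAlgClosed (IsLocalRing.ResidueField R)]
  [Field E] [CharZero E] [Algebra R E] [IsFractionRing R E]
  [Field F] [Algebra E F] [Algebra R F] [IsScalarTower R E F]
  [Field F'] [Algebra E F'] [Algebra R F'] [IsScalarTower R E F']

/-- Everything the abstract cores need, from a `TripleCtx`, for a GIVEN uniformiser `π` of
`V₂`. -/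
theorem h117_pack (w : R) (hw : Irreducible w) (q : ℕ) (hq : q.Prime)
    (α β : F' →ₐ[E] F) (x : F) (x' : F')
    (V₁ V₂ V₃ : ValuationSubring F) (V₁' V₂' : ValuationSubring F')
    (T : TripleCtx w q α β x x' V₁ V₂ V₃ V₁' V₂') (π : F) (hπ : UnifAt V₂ π) :
    (α : F' →+* F) (algebraMap R F' w) = algebraMap R F w ∧
    (β : F' →+* F) (algebraMap R F' w) = algebraMap R F w ∧
    NormTable (α : F' →+* F) (S29.H395.normAlong α) q (algebraMap R F' w) π V₁' V₂' V₁ V₂ V₃ ∧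
    NormTable (β : F' →+* F) (S29.H395.normAlong β) q (algebraMap R F' w) π V₂' V₁' V₃ V₂ V₁ ∧
    algebraMap R F' w ≠ 0 ∧
    V₁'.valuation (algebraMap R F' w) < 1 ∧ V₂'.valuation (algebraMap R F' w) < 1 ∧
    IsOrd V₂ π (algebraMap R F w) ((q : ℤ) - 1) ∧
    (∀ y : F, y ≠ 0 → ∃ a : ℤ, IsOrd V₁ (algebraMap R F w) y a) ∧
    (∀ y : F, y ≠ 0 → ∃ a : ℤ, IsOrd V₂ π y a) ∧
    (∀ y : F, y ≠ 0 → ∃ a : ℤ, IsOrd V₃ (algebraMap R F w) y a) ∧
    (∀ y : F', y ≠ 0 → ∃ a : ℤ, IsOrd V₁' (algebraMap R F' w) y a) ∧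
    (∀ y : F', y ≠ 0 → ∃ a : ℤ, IsOrd V₂' (algebraMap R F' w) y a) ∧
    (∀ a b c : ℤ, ∃ g : F, IsOrd V₁ (algebraMap R F w) g a ∧ IsOrd V₂ π g b ∧
      IsOrd V₃ (algebraMap R F w) g c) ∧
    (∀ g₁ g₂ g₃ : F, V₁.valuation g₁ = 1 → V₂.valuation g₂ = 1 →
      V₃.valuation g₃ = 1 → ∃ g : F, PU V₁ (g / g₁) ∧ PU V₂ (g / g₂) ∧ PU V₃ (g / g₃)) := by
  haveI := T.dvr₁
  haveI := T.dvr₂
  haveI := T.dvr₃
  have hq2 : 2 ≤ q := hq.two_le
  -- `w = unit · π ^ (q - 1)` for the GIVEN uniformiser `π`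
  have hram : UnitAt V₂ (algebraMap R F w * (π ^ (q - 1))⁻¹) := by
    obtain ⟨π₀, hπ₀, hram₀⟩ := T.ram₂
    -- `π₀ / π` is a unit of `V₂`
    obtain ⟨a, ha⟩ := exists_isOrd_of_unifAt V₂ hπ π₀ hπ₀.1
    obtain ⟨b, hb⟩ := exists_isOrd_of_unifAt V₂ hπ₀ π hπ.1
    have hπv : V₂.valuation π < 1 := UnifAt.val_lt_one hπ
    have hπ₀v : V₂.valuation π₀ < 1 := UnifAt.val_lt_one hπ₀
    -- both are uniformisers: `v(π₀) = v(π)`
    have h1 : V₂.valuation π₀ ≤ V₂.valuation π := by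
      have := hπ.2.2 π₀ hπ₀.2.1
      have h2 := (ValuationSubring.valuation_le_one_iff V₂ _).2 this
      rw [map_mul, map_inv₀] at h2
      have hpos : 0 < V₂.valuation π := zero_lt_iff.2 ((Valuation.ne_zero_iff _).2 hπ.1)
      rwa [← div_eq_mul_inv, div_le_one₀ hpos] at h2
    have h2 : V₂.valuation π ≤ V₂.valuation π₀ := by
      have := hπ₀.2.2 π hπ.2.1
      have h2 := (ValuationSubring.valuation_le_one_iff V₂ _).2 this
      rw [map_mul, map_inv₀] at h2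
      have hpos : 0 < V₂.valuation π₀ := zero_lt_iff.2 ((Valuation.ne_zero_iff _).2 hπ₀.1)
      rwa [← div_eq_mul_inv, div_le_one₀ hpos] at h2
    have heq : V₂.valuation π₀ = V₂.valuation π := le_antisymm h1 h2
    rw [unitAt_iff] at hram₀ ⊢
    rw [map_mul, map_inv₀, map_pow] at hram₀ ⊢
    rw [← heq]
    exact hram₀
  have hαw : α (algebraMap R F' w) = algebraMap R F w := by
    rw [IsScalarTower.algebraMap_apply R E F', α.commutes,
      ← IsScalarTower.algebraMap_apply R E F]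
  have hβw : β (algebraMap R F' w) = algebraMap R F w := by
    rw [IsScalarTower.algebraMap_apply R E F', β.commutes,
      ← IsScalarTower.algebraMap_apply R E F]
  have hαw' : (α : F' →+* F) (algebraMap R F' w) = algebraMap R F w := hαw
  have hβw' : (β : F' →+* F) (algebraMap R F' w) = algebraMap R F w := hβw
  have hwF0 : algebraMap R F w ≠ 0 := T.unif₁.1
  have hw'0 : algebraMap R F' w ≠ 0 := by
    intro h
    rw [h, map_zero] at hαw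
    exact hwF0 hαw.symm
  obtain ⟨s₁, s₂, s₃⟩ := Fermat.Agent.S36.H919.h919_isSheet_of_ctx hq2 T
  haveI : CharZero F := charZero_of_injective_algebraMap (algebraMap E F).injective
  haveI : FiniteDimensional (baseField R x) F :=
    Fermat.Agent.S36.H919.h919_finiteDimensional E T.hfin
  have hinj : Function.Injective (algebraMap R F) := Fermat.Agent.S36.H919.h919_injective E
  have hxR : Transcendental R x := Fermat.Agent.S36.H919.h919_transcendental E T.hx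
  have resα₁ : ∀ y : F, V₁.valuation y = 1 → ∃ a : F', V₁.valuation (y - α a) < 1 :=
    res_lift_of_chart hinj hw.prime hxR s₁ (α : F' →+* F)
      (fun b hb => let ⟨b', _, h⟩ := T.res_α₁ b hb; ⟨b', h⟩)
  have resα₂ : ∀ y : F, V₂.valuation y = 1 → ∃ a : F', V₂.valuation (y - α a) < 1 :=
    res_lift_of_chart hinj hw.prime hxR s₂ (α : F' →+* F)
      (fun b hb => let ⟨b', _, h⟩ := T.res_α₂ b hb; ⟨b', h⟩)
  have resβ₃ : ∀ y : F, V₃.valuation y = 1 → ∃ a : F', V₃.valuation (y - β a) < 1 :=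
    res_lift_of_chart hinj hw.prime hxR s₃ (β : F' →+* F)
      (fun b hb => let ⟨b', _, h⟩ := T.res_β₃ b hb; ⟨b', h⟩)
  have resβ₂ : ∀ y : F, V₂.valuation y = 1 → ∃ a : F', V₂.valuation (y - β a) < 1 :=
    res_lift_of_chart hinj hw.prime hxR s₂ (β : F' →+* F)
      (fun b hb => let ⟨b', _, h⟩ := T.res_β₂ b hb; ⟨b', h⟩)
  have Tα : NormTable (α : F' →+* F) (S29.H395.normAlong α) q (algebraMap R F' w) π
      V₁' V₂' V₁ V₂ V₃ :=
    normTable_of_fields α q hq.pos (algebraMap R F' w) (algebraMap R F w) π hαw V₁' V₂' V₁ V₂ V₃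
      T.unif₁ T.unif₃ hπ hram T.comap_α₁ T.comap_α₂ T.comap_α₃ resα₁ resα₂ (T.nv_α π hπ)
      T.nr_α₁ T.nr_α₂
  have Tβ : NormTable (β : F' →+* F) (S29.H395.normAlong β) q (algebraMap R F' w) π
      V₂' V₁' V₃ V₂ V₁ :=
    normTable_of_fields β q hq.pos (algebraMap R F' w) (algebraMap R F w) π hβw V₂' V₁' V₃ V₂ V₁
      T.unif₃ T.unif₁ hπ hram T.comap_β₃ T.comap_β₂ T.comap_β₁ resβ₃ resβ₂
      (fun y au ar ai hy hu hr hi => T.nv_β π hπ y ai ar au hy hi hr hu) T.nr_β₁ T.nr_β₂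
  have hordFF : ∀ y : F, y ≠ 0 → ∃ a : ℤ, IsOrd V₁ (algebraMap R F w) y a :=
    exists_isOrd_of_unifAt V₁ T.unif₁
  have hordmid : ∀ y : F, y ≠ 0 → ∃ a : ℤ, IsOrd V₂ π y a := exists_isOrd_of_unifAt V₂ hπ
  have hordVV : ∀ y : F, y ≠ 0 → ∃ a : ℤ, IsOrd V₃ (algebraMap R F w) y a :=
    exists_isOrd_of_unifAt V₃ T.unif₃
  have hord1 : ∀ y : F', y ≠ 0 → ∃ a : ℤ, IsOrd V₁' (algebraMap R F' w) y a := by
    intro y hy
    obtain ⟨a, ha⟩ := hordFF (α y) ((map_ne_zero α).2 hy)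
    refine ⟨a, over_isOrd_down (φ := (α : F' →+* F)) Tα.over_u hw'0 y a ?_⟩
    rw [hαw']
    exact ha
  have hord2 : ∀ y : F', y ≠ 0 → ∃ a : ℤ, IsOrd V₂' (algebraMap R F' w) y a := by
    intro y hy
    obtain ⟨a, ha⟩ := hordVV (α y) ((map_ne_zero α).2 hy)
    refine ⟨a, over_isOrd_down (φ := (α : F' →+* F)) Tα.over_i hw'0 y a ?_⟩
    rw [hαw']
    exact ha
  have hw1 : V₁'.valuation (algebraMap R F' w) < 1 := by
    rw [← over_val_lt_one Tα.over_u, hαw']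
    exact UnifAt.val_lt_one T.unif₁
  have hw2 : V₂'.valuation (algebraMap R F' w) < 1 := by
    rw [← over_val_lt_one Tα.over_i, hαw']
    exact UnifAt.val_lt_one T.unif₃
  have hramO : IsOrd V₂ π (algebraMap R F w) ((q : ℤ) - 1) := by
    have h1 : IsOrd V₂ π (algebraMap R F w) ((q - 1 : ℕ) : ℤ) := by
      rw [isOrd_iff_unitAt hπ.1, zpow_natCast]
      exact hram
    have h4 : ((q - 1 : ℕ) : ℤ) = (q : ℤ) - 1 := by
      rw [Nat.cast_sub hq.pos]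
      simp
    rwa [h4] at h1
  have hap_ord : ∀ a b c : ℤ, ∃ g : F, IsOrd V₁ (algebraMap R F w) g a ∧ IsOrd V₂ π g b ∧
      IsOrd V₃ (algebraMap R F w) g c :=
    exists_approx_ord3 V₁ V₂ V₃ T.ne₁₂ T.ne₁₃ T.ne₂₃ T.unif₁.1 T.unif₁.2.1 T.unif₁.2.2
      hπ.1 hπ.2.1 hπ.2.2 T.unif₃.1 T.unif₃.2.1 T.unif₃.2.2
  have hap_res : ∀ g₁ g₂ g₃ : F, V₁.valuation g₁ = 1 → V₂.valuation g₂ = 1 →
      V₃.valuation g₃ = 1 → ∃ g : F, PU V₁ (g / g₁) ∧ PU V₂ (g / g₂) ∧ PU V₃ (g / g₃) :=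
    exists_approx_res3 V₁ V₂ V₃ T.ne₁₂ T.ne₁₃ T.ne₂₃
  exact ⟨hαw', hβw', Tα, Tβ, hw'0, hw1, hw2, hramO, hordFF, hordmid, hordVV, hord1, hord2,
    hap_ord, hap_res⟩

end Pack

/-! ## The leaves -/

/-- **W-NEW, slope zero given.** -/
theorem h117_leafNewZero : LeafNewZero := by
  intro R E F F' _ _ _ _ _ _ _ _ _ _ _ _ _ _ _ _ _ w hw q hq hqR α β x x' V₁ V₂ V₃ V₁' V₂' T
    m hm hqm f hf hNα hNβ hslope
  obtain ⟨π, hπ, -⟩ := T.ram₂
  obtain ⟨hαw, hβw, Tα, Tβ, hw'0, hw1, hw2, hramO, hordFF, hordmid, hordVV, hord1, hord2,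
    hap_ord, hap_res⟩ := h117_pack w hw q hq α β x x' V₁ V₂ V₃ V₁' V₂' T π hπ
  have hNα' := exists_zpow_of_normPow (E := E) w hw q m hq hqR hm hqm
    (S29.H395.normAlong_ne_zero α T.fin_α hf) hNα
  have hNβ' := exists_zpow_of_normPow (E := E) w hw q m hq hqR hm hqm
    (S29.H395.normAlong_ne_zero β T.fin_β hf) hNβ
  obtain ⟨s₀, g₀, hg₀, h1, h2, h3⟩ := hslope
  obtain ⟨G, u, G₂, hG, hfu, hu₁, hu₂, hu₃, hG₂0, hG₂1, hG₂, ⟨k₁, hk₁⟩, ⟨k₂, hk₂⟩⟩ :=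
    h117_stepNew (α : F' →+* F) (β : F' →+* F) (S29.H395.normAlong α) (S29.H395.normAlong β)
      q m hm ((Nat.Prime.coprime_iff_not_dvd hq).2 hqm) (algebraMap R F' w)
      (algebraMap R F w) π hαw hβw V₁' V₂' V₁ V₂ V₃ Tα Tβ hw'0 hw1 hw2 hord1 hord2 hap_res
      f hNα' hNβ' s₀ g₀ hg₀ (unitAt_iff.1 h1) (unitAt_iff.1 h2) (unitAt_iff.1 h3)
  refine ⟨s₀, G, u, G₂, k₁, k₂, hG, hfu, pu_iff.1 hu₁, unitAt_iff.2 hu₂, pu_iff.1 hu₃,
    unitAt_iff.2 hG₂1, ?_, hk₁, hk₂⟩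
  rw [← val_lt_one_iff_mem_nonunits]
  exact sub_of_pu_div (by rw [map_pow, hG₂1, one_pow]) hG₂

/-- **W-NEW, case `gcd(q + 1, m) = 1`.** -/
theorem h117_leafNewMinus : LeafNewMinus := by
  intro R E F F' _ _ _ _ _ _ _ _ _ _ _ _ _ _ _ _ _ w hw q hq hqR α β x x' V₁ V₂ V₃ V₁' V₂' T
    m hm hqm hq1m f hf hNα hNβ
  obtain ⟨π, hπ, -⟩ := T.ram₂
  obtain ⟨hαw, hβw, Tα, Tβ, hw'0, hw1, hw2, hramO, hordFF, hordmid, hordVV, hord1, hord2,
    hap_ord, hap_res⟩ := h117_pack w hw q hq α β x x' V₁ V₂ V₃ V₁' V₂' T π hπ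
  have hNα' := exists_zpow_of_normPow (E := E) w hw q m hq hqR hm hqm
    (S29.H395.normAlong_ne_zero α T.fin_α hf) hNα
  have hNβ' := exists_zpow_of_normPow (E := E) w hw q m hq hqR hm hqm
    (S29.H395.normAlong_ne_zero β T.fin_β hf) hNβ
  obtain ⟨t, g₀, hg₀0, h1, h2, h3⟩ := h117_slopeZero_of_coprime (α : F' →+* F) (β : F' →+* F)
    (S29.H395.normAlong α) (S29.H395.normAlong β) q m hq1m (algebraMap R F' w)
    (algebraMap R F w) π hαw hβw V₁' V₂' V₁ V₂ V₃ Tα Tβ hw'0 hw1 hw2 hπ.1 hramO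
    hordFF hordmid hordVV hord1 hord2 hap_ord f hf hNα' hNβ'
  exact h117_leafNewZero w hw q hq hqR α β x x' V₁ V₂ V₃ V₁' V₂' T m hm hqm f hf hNα hNβ
    ⟨t, g₀, hg₀0, unitAt_iff.2 h1, unitAt_iff.2 h2, unitAt_iff.2 h3⟩

/-- **W-NEW, case `gcd(q - 1, m) = 1`, slope zero given.** -/
theorem h117_leafNewPlus : LeafNewPlus := by
  intro R E F F' _ _ _ _ _ _ _ _ _ _ _ _ _ _ _ _ _ w hw q hq hqR α β x x' V₁ V₂ V₃ V₁' V₂' T
    m hm hqm hq1m f hf hNα hNβ hslope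
  obtain ⟨π, hπ, -⟩ := T.ram₂
  obtain ⟨hαw, hβw, Tα, Tβ, hw'0, hw1, hw2, hramO, hordFF, hordmid, hordVV, hord1, hord2,
    hap_ord, hap_res⟩ := h117_pack w hw q hq α β x x' V₁ V₂ V₃ V₁' V₂' T π hπ
  have hNα' := exists_zpow_of_normPow (E := E) w hw q m hq hqR hm hqm
    (S29.H395.normAlong_ne_zero α T.fin_α hf) hNα
  have hNβ' := exists_zpow_of_normPow (E := E) w hw q m hq hqR hm hqm
    (S29.H395.normAlong_ne_zero β T.fin_β hf) hNβ
  obtain ⟨s₀, g₀, hg₀, h1, h2, h3⟩ := hslope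
  obtain ⟨G, u, hG, hfu, hu₁, hu₂, hu₃, ⟨k₁, hk₁⟩, ⟨k₂, hk₂⟩⟩ :=
    h117_stepNew_mid (α : F' →+* F) (β : F' →+* F) (S29.H395.normAlong α)
      (S29.H395.normAlong β) q m hm ((Nat.Prime.coprime_iff_not_dvd hq).2 hqm) hq1m
      (algebraMap R F' w) (algebraMap R F w) π hαw hβw V₁' V₂' V₁ V₂ V₃ Tα Tβ hw'0 hw1 hw2
      hord1 hord2 hap_res f hNα' hNβ' s₀ g₀ hg₀ (unitAt_iff.1 h1) (unitAt_iff.1 h2)
      (unitAt_iff.1 h3)
  exact ⟨s₀, G, u, k₁, k₂, hG, hfu, pu_iff.1 hu₁, pu_iff.1 hu₂, pu_iff.1 hu₃, hk₁, hk₂⟩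

/-- **SLOPE (valuation part).** -/
theorem h117_leafSlope : LeafSlope := by
  intro R E F F' _ _ _ _ _ _ _ _ _ _ _ _ _ _ _ _ _ w hw q hq hqR α β x x' V₁ V₂ V₃ V₁' V₂' T
    m hm hqm f hf hNα hNβ π hπ
  obtain ⟨hαw, hβw, Tα, Tβ, hw'0, hw1, hw2, hramO, hordFF, hordmid, hordVV, hord1, hord2,
    hap_ord, hap_res⟩ := h117_pack w hw q hq α β x x' V₁ V₂ V₃ V₁' V₂' T π hπ
  have hNα' := exists_zpow_of_normPow (E := E) w hw q m hq hqR hm hqm
    (S29.H395.normAlong_ne_zero α T.fin_α hf) hNα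
  have hNβ' := exists_zpow_of_normPow (E := E) w hw q m hq hqR hm hqm
    (S29.H395.normAlong_ne_zero β T.fin_β hf) hNβ
  have hw0 : algebraMap R F w ≠ 0 := T.unif₁.1
  obtain ⟨aFF, hFF⟩ := hordFF f hf
  obtain ⟨amid, hmid⟩ := hordmid f hf
  obtain ⟨aVV, hVV⟩ := hordVV f hf
  obtain ⟨d₁, e, hd, he⟩ := h117_slope (α : F' →+* F) (β : F' →+* F) (S29.H395.normAlong α)
    (S29.H395.normAlong β) q m (algebraMap R F' w) (algebraMap R F w) π hαw hβw V₁' V₂' V₁ V₂ V₃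
    Tα Tβ hw'0 hw1 hw2 hord1 hord2 f hNα' hNβ' hFF hmid hVV
  obtain ⟨g₀, hg₀FF, hg₀mid, hg₀VV⟩ := hap_ord 0 e 0
  have hg₀0 : g₀ ≠ 0 := hg₀FF.ne_zero hw0
  refine ⟨aVV, aFF - aVV, d₁, g₀, hg₀0, hd, ?_, ?_, ?_⟩
  · rw [unitAt_iff]
    have h1 : IsOrd V₁ (algebraMap R F w)
        (f * (algebraMap R F w ^ (aVV + (aFF - aVV)))⁻¹ * (g₀ ^ m)⁻¹)
        (aFF + -((aVV + (aFF - aVV)) * 1) + -(m * 0)) :=
      (hFF.mul hw0 ((IsOrd.self).zpow _).inv).mul hw0 (hg₀FF.pow m).inv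
    refine (h1.congr ?_).val_eq_one
    ring
  · rw [unitAt_iff]
    have h1 : IsOrd V₂ π
        (f * (algebraMap R F w ^ aVV)⁻¹ * (π ^ (-(aFF - aVV)))⁻¹ * (g₀ ^ m)⁻¹)
        (amid + -(aVV * ((q : ℤ) - 1)) + -(-(aFF - aVV) * 1) + -(m * e)) :=
      ((hmid.mul hπ.1 (hramO.zpow aVV).inv).mul hπ.1 ((IsOrd.self).zpow _).inv).mul hπ.1
        (hg₀mid.pow m).inv
    refine (h1.congr ?_).val_eq_one
    linear_combination he
  · rw [unitAt_iff]
    have h1 : IsOrd V₃ (algebraMap R F w) (f * (algebraMap R F w ^ aVV)⁻¹ * (g₀ ^ m)⁻¹)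
        (aVV + -(aVV * 1) + -(m * 0)) :=
      (hVV.mul hw0 ((IsOrd.self).zpow aVV).inv).mul hw0 (hg₀VV.pow m).inv
    refine (h1.congr ?_).val_eq_one
    ring

end Fermat.Agent.S59.LoSqC.H117

end
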