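import Fermat.Agent.S59.LoSqC.Spec
import Fermat.Agent.S59.LoSqC.H117.NewA

/-!
# S59 / cell (C) LO-SQ: the abstract leaf `NewUnitsStatement` (W-NEW), VERBATIM (helper117)

`h117_newUnits : Fermat.Agent.S59.LoSqC.NewUnitsStatement` (frozen in `LoSqC/Spec.lean`,
cell architect helper885).

Proof: orders `(a₁, a₂, a₃)` of `f` at `(V₁ | w, V₂ | π, V₃ | w)`; the norm tables of `α`, `β`
(`h117_slope`) give `(q + 1)(a₁ - a₃) ≡ 0` and `a₂ ≡ (q - 1) a₃ - (a₁ - a₃) mod m`; if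
`gcd(m, q + 1) = 1` or the slope hypothesis holds then `m ∣ a₁ - a₃`, and
`c = w ^ a₃`, `G` of orders `((a₁ - a₃)/m, e - (a₁ - a₃)/m, 0)` by approximation.
-/

set_option autoImplicit false
set_option linter.style.haveILetI false
set_option linter.unusedSectionVars false
set_option linter.unusedVariables false
set_option synthInstance.maxHeartbeats 400000
set_option maxHeartbeats 1600000

noncomputable section

namespace Fermat.Agent.S59.LoSqC.H117

open Fermat.Agent Fermat.Agent.S36.Eng Fermat.Agent.S36.H586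

/-- **NEW-UNITS**, the frozen abstract leaf of cell (C), verbatim. -/
theorem h117_newUnits : Fermat.Agent.S59.LoSqC.NewUnitsStatement := by
  intro R E F F' _ _ _ _ _ _ _ _ _ _ _ _ _ _ _ _ _ w hw q hq hqR α β x x' V₁ V₂ V₃ V₁' V₂' T
    m hm hqm f hf hNα hNβ hslope
  obtain ⟨π, hπ, -⟩ := T.ram₂
  obtain ⟨hαw, hβw, Tα, Tβ, hw'0, hw1, hw2, hramO, hordFF, hordmid, hordVV, hord1, hord2,
    hap_ord, hap_res⟩ := h117_pack w hw q hq α β x x' V₁ V₂ V₃ V₁' V₂' T π hπ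
  have hNα' := exists_zpow_of_normPow (E := E) w hw q m hq hqR hm hqm
    (S29.H395.normAlong_ne_zero α T.fin_α hf) hNα
  have hNβ' := exists_zpow_of_normPow (E := E) w hw q m hq hqR hm hqm
    (S29.H395.normAlong_ne_zero β T.fin_β hf) hNβ
  have hw0 : algebraMap R F w ≠ 0 := T.unif₁.1
  have hπ0 : π ≠ 0 := hπ.1
  obtain ⟨aFF, hFF⟩ := hordFF f hf
  obtain ⟨amid, hmid⟩ := hordmid f hf
  obtain ⟨aVV, hVV⟩ := hordVV f hf
  obtain ⟨d₁, e, hd, he⟩ := h117_slope (α : F' →+* F) (β : F' →+* F) (S29.H395.normAlong α)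
    (S29.H395.normAlong β) q m (algebraMap R F' w) (algebraMap R F w) π hαw hβw V₁' V₂' V₁ V₂ V₃
    Tα Tβ hw'0 hw1 hw2 hord1 hord2 f hNα' hNβ' hFF hmid hVV
  -- `m ∣ a₁ - a₃`
  have hdvd : (m : ℤ) ∣ aFF - aVV := by
    by_cases hcop : Nat.Coprime m (q + 1)
    · have h1 : (m : ℤ) ∣ ((q : ℤ) + 1) * (aFF - aVV) := ⟨d₁, hd⟩
      have hcop' : IsCoprime (m : ℤ) ((q : ℤ) + 1) := by
        have := Nat.isCoprime_iff_coprime.2 hcop
        simpa using this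
      exact hcop'.dvd_of_dvd_mul_left h1
    · obtain ⟨a₁, a₃, h1, h3, hdv⟩ := hslope hcop
      have e1 : aFF = a₁ :=
        IsOrd.unique hw0 (UnifAt.val_lt_one T.unif₁) hFF ((isOrd_iff_unitAt hw0 f a₁).2 h1)
      have e3 : aVV = a₃ :=
        IsOrd.unique hw0 (UnifAt.val_lt_one T.unif₃) hVV ((isOrd_iff_unitAt hw0 f a₃).2 h3)
      rw [e1, e3]
      exact hdv
  obtain ⟨c, hc⟩ := hdvd
  obtain ⟨g₀, hg₀FF, hg₀mid, hg₀VV⟩ := hap_ord c (e - c) 0
  have hg₀0 : g₀ ≠ 0 := hg₀FF.ne_zero hw0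
  have hwE0 : algebraMap R E w ≠ 0 := by
    intro h
    apply hw0
    rw [IsScalarTower.algebraMap_apply R E F, h, map_zero]
  have hcE : algebraMap E F (algebraMap R E w ^ aVV) = algebraMap R F w ^ aVV := by
    rw [map_zpow₀, ← IsScalarTower.algebraMap_apply R E F]
  have key : f * (algebraMap E F (algebraMap R E w ^ aVV) * g₀ ^ m)⁻¹
      = f * (algebraMap R F w ^ aVV)⁻¹ * (g₀ ^ m)⁻¹ := by
    rw [hcE, mul_inv, mul_assoc]
  refine ⟨algebraMap R E w ^ aVV, g₀, zpow_ne_zero _ hwE0, hg₀0, ?_, ?_, ?_⟩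
  · rw [key, unitAt_iff]
    have h1 : IsOrd V₁ (algebraMap R F w) (f * (algebraMap R F w ^ aVV)⁻¹ * (g₀ ^ m)⁻¹)
        (aFF + -(aVV * 1) + -(m * c)) :=
      (hFF.mul hw0 ((IsOrd.self).zpow aVV).inv).mul hw0 (hg₀FF.pow m).inv
    refine (h1.congr ?_).val_eq_one
    linear_combination hc
  · rw [key, unitAt_iff]
    have h1 : IsOrd V₂ π (f * (algebraMap R F w ^ aVV)⁻¹ * (g₀ ^ m)⁻¹)
        (amid + -(aVV * ((q : ℤ) - 1)) + -(m * (e - c))) :=
      (hmid.mul hπ0 (hramO.zpow aVV).inv).mul hπ0 (hg₀mid.pow m).inv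
    refine (h1.congr ?_).val_eq_one
    linear_combination he - hc
  · rw [key, unitAt_iff]
    have h1 : IsOrd V₃ (algebraMap R F w) (f * (algebraMap R F w ^ aVV)⁻¹ * (g₀ ^ m)⁻¹)
        (aVV + -(aVV * 1) + -(m * 0)) :=
      (hVV.mul hw0 ((IsOrd.self).zpow aVV).inv).mul hw0 (hg₀VV.pow m).inv
    refine (h1.congr ?_).val_eq_one
    ring

end Fermat.Agent.S59.LoSqC.H117

end
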